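import Mathlib
import Fermat.Prelude.Def_CuspForm_HeckeAlgebra
import Fermat.Prelude.Thm_ModularFormClass_qCoeff_heckeT
import Fermat.Prelude.Thm_ModularFormClass_qCoeff_heckeU
import Fermat.Prelude.Thm_CongruenceSubgroup_one_mem_strictPeriods_Gamma0

/-!
# J-4-E (E2) : the `q`-expansion pairing on `S_k(Γ₀(N))` and the full Hecke family

* `Tr N k r` : for every prime `r`, the Prelude operator `heckeULin k` (`r ∣ N`, the standard
  `U_r`, `a_n ↦ a_{nr}`) resp. `heckeTLin k` (`r ∤ N`) on `CuspForm (Gamma0 N) k`.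
* `Tr_comm` : they commute pairwise.
* `a1 N k` : the first `q`-coefficient as a linear functional.
* `hpair` : if `a₁ (b f) = 0` for every `b` in the `ℤ`-algebra generated by all the `Tr N k r`
  then `f = 0` (the hypothesis `hpair` of `Eigen.Transfer.exists_eigensystem_finrank_two`).
* `heckeAlgebra_eq_adjoin` : the Prelude Hecke algebra `heckeAlgebra N k S` is the algebra
  generated by the `Tr N k r` with `r ∉ S`; `chiAdjoin` transports a character.
-/

set_option autoImplicit false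

open CongruenceSubgroup ModularFormClass

namespace Fermat.Agent.S30.Eigen.MultOne

variable {N : ℕ} {k : ℤ}

theorem hΓ (N : ℕ) :
    (1 : ℝ) ∈ (Subgroup.map (Matrix.SpecialLinearGroup.mapGL ℝ) (Gamma0 N)).strictPeriods :=
  CongruenceSubgroup.one_mem_strictPeriods_Gamma0 N

theorem qCoeff_add (f g : CuspForm (Gamma0 N) k) (n : ℕ) :
    qCoeff ⇑(f + g) n = qCoeff ⇑f n + qCoeff ⇑g n := by
  simp only [qCoeff, FunLike.coe_add]
  rw [ModularForm.qExpansion_add one_pos (hΓ N) f g, map_add]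

theorem qCoeff_smul (c : ℂ) (f : CuspForm (Gamma0 N) k) (n : ℕ) :
    qCoeff ⇑(c • f) n = c * qCoeff ⇑f n := by
  have h1 : ⇑(c • f) = c • ⇑f := by
    ext z
    simp
  simp only [qCoeff, h1]
  rw [ModularForm.qExpansion_smul one_pos (hΓ N) c f]
  simp

/-- The `n`-th `q`-coefficient as a linear functional on cusp forms. -/
noncomputable def qCoeffLin (N : ℕ) (k : ℤ) (n : ℕ) : CuspForm (Gamma0 N) k →ₗ[ℂ] ℂ where
  toFun f := qCoeff ⇑f n
  map_add' f g := qCoeff_add f g n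
  map_smul' c f := by simpa using qCoeff_smul c f n

@[simp] theorem qCoeffLin_apply (n : ℕ) (f : CuspForm (Gamma0 N) k) :
    qCoeffLin N k n f = qCoeff ⇑f n := rfl

/-- The first `q`-coefficient. -/
noncomputable def a1 (N : ℕ) (k : ℤ) : CuspForm (Gamma0 N) k →ₗ[ℂ] ℂ := qCoeffLin N k 1

theorem a1_apply (f : CuspForm (Gamma0 N) k) : a1 N k f = qCoeff ⇑f 1 := rfl

theorem qCoeff_cusp_zero (f : CuspForm (Gamma0 N) k) : qCoeff ⇑f 0 = 0 :=
  CuspFormClass.qExpansion_coeff_zero f one_pos (hΓ N)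

theorem qCoeff_heckeTLin {p : ℕ} (hp : p.Prime) (hpN : ¬ p ∣ N) (f : CuspForm (Gamma0 N) k)
    (n : ℕ) :
    qCoeff ⇑(CuspForm.heckeTLin k hp hpN f) n =
      qCoeff ⇑f (n * p) + if p ∣ n then (p : ℂ) ^ (k - 1) * qCoeff ⇑f (n / p) else 0 := by
  rw [CuspForm.coe_heckeTLin_apply, ModularFormClass.qCoeff_heckeT f (hΓ N) hp.ne_zero n]
  rfl

theorem qCoeff_heckeULin [NeZero N] {p : ℕ} (hp : p.Prime) (hpN : p ∣ N)
    (f : CuspForm (Gamma0 N) k) (n : ℕ) :
    qCoeff ⇑(CuspForm.heckeULin k hpN f) n = qCoeff ⇑f (n * p) := by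
  rw [CuspForm.coe_heckeULin_apply, ModularFormClass.qCoeff_heckeU f (hΓ N) hp.ne_zero n]
  rfl

/-- A cusp form all of whose `q`-coefficients vanish is zero. -/
theorem eq_zero_of_qCoeff_eq_zero (f : CuspForm (Gamma0 N) k) (h : ∀ n, qCoeff ⇑f n = 0) :
    f = 0 := by
  have h0 : UpperHalfPlane.qExpansion 1 ⇑f = 0 := by
    ext n
    simpa [qCoeff] using h n
  have hf : (⇑f : UpperHalfPlane → ℂ) = 0 := by
    have : Fact (IsCusp OnePoint.infty
        (Subgroup.map (Matrix.SpecialLinearGroup.mapGL ℝ) (Gamma0 N))) :=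
      ⟨Subgroup.isCusp_of_mem_strictPeriods one_pos (hΓ N)⟩
    exact (UpperHalfPlane.qExpansion_eq_zero_iff one_pos
      (SlashInvariantFormClass.periodic_comp_ofComplex f (hΓ N))
      (CuspFormClass.holo f) (ModularFormClass.bdd_at_infty f)).mp h0
  exact DFunLike.coe_injective (by rw [hf]; rfl)

section Family

variable (N : ℕ) [NeZero N] (k : ℤ)

open Classical in
/-- The full Hecke family on `S_k(Γ₀(N))`: `U_r` for `r ∣ N`, `T_r` for `r ∤ N`. -/
noncomputable def Tr (r : Nat.Primes) : Module.End ℂ (CuspForm (Gamma0 N) k) :=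
  if h : (r : ℕ) ∣ N then CuspForm.heckeULin k h else CuspForm.heckeTLin k r.2 h

theorem Tr_of_dvd {r : Nat.Primes} (h : (r : ℕ) ∣ N) : Tr N k r = CuspForm.heckeULin k h :=
  dif_pos h

theorem Tr_of_not_dvd {r : Nat.Primes} (h : ¬ (r : ℕ) ∣ N) :
    Tr N k r = CuspForm.heckeTLin k r.2 h :=
  dif_neg h

theorem Tr_mem_heckeGenerators (r : Nat.Primes) (S : Set ℕ) (hr : (r : ℕ) ∉ S) :
    Tr N k r ∈ CuspForm.heckeGenerators N k S := by
  by_cases h : (r : ℕ) ∣ N
  · rw [Tr_of_dvd N k h]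
    exact CuspForm.heckeULin_mem_heckeGenerators r.2 h hr
  · rw [Tr_of_not_dvd N k h]
    exact CuspForm.heckeTLin_mem_heckeGenerators r.2 h hr

/-- The operators of the full Hecke family commute pairwise. -/
theorem Tr_comm (r s : Nat.Primes) : Tr N k r * Tr N k s = Tr N k s * Tr N k r :=
  (CuspForm.commute_of_mem_heckeGenerators (S := ∅)
    (Tr_mem_heckeGenerators N k r ∅ (Set.notMem_empty _))
    (Tr_mem_heckeGenerators N k s ∅ (Set.notMem_empty _))).eq

/-- The generators of the Prelude Hecke algebra away from `S` are exactly the `Tr N k r`,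
`r ∉ S`. -/
theorem heckeGenerators_eq (S : Set ℕ) :
    CuspForm.heckeGenerators N k S = Tr N k '' {r : Nat.Primes | (r : ℕ) ∉ S} := by
  ext t
  constructor
  · rintro (⟨ℓ, hℓ, hℓN, hℓS, rfl⟩ | ⟨q, hqN, hq, hqS, rfl⟩)
    · exact ⟨⟨ℓ, hℓ⟩, hℓS, Tr_of_not_dvd N k (r := ⟨ℓ, hℓ⟩) hℓN⟩
    · exact ⟨⟨q, hq⟩, hqS, Tr_of_dvd N k (r := ⟨q, hq⟩) hqN⟩
  · rintro ⟨r, hr, rfl⟩
    exact Tr_mem_heckeGenerators N k r S hr

/-- The Prelude Hecke algebra away from `S` is generated by the `Tr N k r`, `r ∉ S`. -/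
theorem heckeAlgebra_eq_adjoin (S : Set ℕ) :
    CuspForm.heckeAlgebra N k S =
      Algebra.adjoin ℤ (Tr N k '' {r : Nat.Primes | (r : ℕ) ∉ S}) := by
  rw [CuspForm.heckeAlgebra, heckeGenerators_eq]

/-- **The `q`-expansion pairing is non-degenerate**: a cusp form `f` such that
`a₁ (b f) = 0` for every `b` in the `ℤ`-algebra generated by the full Hecke family is zero. -/
theorem hpair (f : CuspForm (Gamma0 N) k)
    (h : ∀ b ∈ Algebra.adjoin ℤ (Set.range (Tr N k)), a1 N k (b f) = 0) : f = 0 := by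
  classical
  -- all coefficients of all `b f` vanish
  have key : ∀ n : ℕ, 1 ≤ n → ∀ b ∈ Algebra.adjoin ℤ (Set.range (Tr N k)),
      qCoeff ⇑(b f) n = 0 := by
    intro n
    induction n using Nat.strong_induction_on with
    | _ n ih =>
      intro hn b hb
      by_cases h1 : n = 1
      · subst h1
        exact h b hb
      · obtain ⟨p, hp, hpn⟩ := Nat.exists_prime_and_dvd h1
        obtain ⟨m, rfl⟩ := hpn
        have hm1 : 1 ≤ m := by
          rcases Nat.eq_zero_or_pos m with h0 | h0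
          · subst h0; simp at hn
          · exact h0
        have hmlt : m < p * m := by
          have := hp.two_le
          nlinarith
        have hTb : Tr N k ⟨p, hp⟩ * b ∈ Algebra.adjoin ℤ (Set.range (Tr N k)) :=
          Subalgebra.mul_mem _ (Algebra.subset_adjoin ⟨⟨p, hp⟩, rfl⟩) hb
        have h2 := ih m hmlt hm1 _ hTb
        rw [Module.End.mul_apply] at h2
        by_cases hpN : p ∣ N
        · rw [Tr_of_dvd N k (r := ⟨p, hp⟩) hpN, qCoeff_heckeULin hp hpN, mul_comm m p] at h2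
          exact h2
        · rw [Tr_of_not_dvd N k (r := ⟨p, hp⟩) hpN, qCoeff_heckeTLin hp hpN, mul_comm m p] at h2
          by_cases hpm : p ∣ m
          · rw [if_pos hpm] at h2
            have hmp1 : 1 ≤ m / p := Nat.div_pos (Nat.le_of_dvd hm1 hpm) hp.pos
            have hmplt : m / p < p * m := lt_of_le_of_lt (Nat.div_le_self m p) hmlt
            rw [ih (m / p) hmplt hmp1 b hb, mul_zero, add_zero] at h2
            exact h2
          · rw [if_neg hpm, add_zero] at h2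
            exact h2
  apply eq_zero_of_qCoeff_eq_zero
  intro n
  rcases Nat.eq_zero_or_pos n with h0 | h0
  · subst h0
    exact qCoeff_cusp_zero f
  · have := key n h0 1 (Subalgebra.one_mem _)
    simpa using this

/-- Transport of a character of the Prelude Hecke algebra to the algebra generated by the
`Tr N k r`, `r ∉ S`. -/
noncomputable def chiAdjoin (S : Set ℕ) {𝒪' : Type*} [CommRing 𝒪']
    (χ : CuspForm.heckeAlgebra N k S →+* 𝒪') :
    Algebra.adjoin ℤ (Tr N k '' {r : Nat.Primes | (r : ℕ) ∉ S}) →+* 𝒪' :=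
  χ.comp (Subalgebra.equivOfEq _ _ (heckeAlgebra_eq_adjoin N k S).symm).toAlgHom.toRingHom

theorem chiAdjoin_apply (S : Set ℕ) {𝒪' : Type*} [CommRing 𝒪']
    (χ : CuspForm.heckeAlgebra N k S →+* 𝒪')
    (x : Algebra.adjoin ℤ (Tr N k '' {r : Nat.Primes | (r : ℕ) ∉ S})) :
    chiAdjoin N k S χ x =
      χ ⟨(x : Module.End ℂ (CuspForm (Gamma0 N) k)), by
        rw [heckeAlgebra_eq_adjoin]; exact x.2⟩ := rfl

/-- On `T_ℓ` (`ℓ ∤ N`, `ℓ ∉ S`) the transported character is `χ (heckeAlgebra.T ..)`. -/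
theorem chiAdjoin_T (S : Set ℕ) {𝒪' : Type*} [CommRing 𝒪']
    (χ : CuspForm.heckeAlgebra N k S →+* 𝒪') {ℓ : ℕ} (hℓ : ℓ.Prime) (hℓN : ¬ ℓ ∣ N)
    (hℓS : ℓ ∉ S) :
    chiAdjoin N k S χ ⟨Tr N k ⟨ℓ, hℓ⟩, Algebra.subset_adjoin ⟨⟨ℓ, hℓ⟩, hℓS, rfl⟩⟩ =
      χ (CuspForm.heckeAlgebra.T hℓ hℓN hℓS) := by
  rw [chiAdjoin_apply]
  congr 1
  apply Subtype.ext
  exact Tr_of_not_dvd N k (r := ⟨ℓ, hℓ⟩) hℓN

end Family

end Fermat.Agent.S30.Eigen.MultOne
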