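import Fermat.Agent.S30.Eigen.EichlerShimura
import Fermat.Agent.S30.Hecke.Involution

/-!
# J-4-E final : hypothesis `(H4)` of `Final/Chain.s30_of_inputs` is a THEOREM

For the Eichler–Shimura lattice `M = parabolicHoms ℤ (Gamma0 N) ℤ` with the double-coset
operators `τ r = tauPar ℤ ℤ N r r.2` (all primes `r`), and for any family conjugate to it by an
automorphism of the lattice:

* `pairEquivariant N` : `EichlerShimura.PairEquivariant N` (from `Hecke/Involution`);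
* `latticeEquiv_tauPar` : `latticeEquiv N` intertwines `(tauPar ℤ ℤ N r).baseChange ℂ` with
  `Tr N 2 r × Tr N 2 r`, unconditionally;
* **`h4`** : `(H4)` for `τ r = tauPar ℤ ℤ N r r.2`;
* **`h4_conj`** : `(H4)` for every family `τ'` with `τ' r ∘ w = w ∘ tauPar r`, `w` an automorphism
  of the lattice (e.g. the Fricke-conjugated family `τ* r = c_W ∘ τ r ∘ c_W⁻¹`).
-/

set_option autoImplicit false

open scoped TensorProduct
open CongruenceSubgroup ModularCurve ModularCurve.Period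

namespace Fermat.Agent.S30.Eigen.H4Final

open Fermat.Agent.S30.Eigen.MultOne Fermat.Agent.S30.Eigen.EichlerShimura
open Fermat.Agent.S30.Padic.EigenLattice
open Fermat.Agent.S30.Hecke.Parabolic

variable (N : ℕ) [NeZero N]

/-- the pair period map is Hecke-equivariant at every prime -/
theorem pairEquivariant : PairEquivariant N := fun _ hr f g =>
  Fermat.Agent.S30.Hecke.Involution.periodHomPair_heckeAll hr f g

/-- **the Eichler–Shimura lattice isomorphism is Hecke-equivariant** -/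
theorem latticeEquiv_tauPar (r : Nat.Primes) (x : ℂ ⊗[ℤ] (parabolicHoms ℤ (Gamma0 N) ℤ)) :
    latticeEquiv N ((tauPar ℤ ℤ N r r.2).baseChange ℂ x) =
      Prod.map (Tr N 2 r) (Tr N 2 r) (latticeEquiv N x) :=
  EichlerShimura.latticeEquiv_tauPar N (pairEquivariant N) r x

/-- **(H4)** of `Final/Chain.s30_of_inputs` for `M = parabolicHoms ℤ (Gamma0 N) ℤ`,
`τ r = tauPar ℤ ℤ N r r.2`. -/
theorem h4 (S : Finset ℕ) (𝒪' : Type) [CommRing 𝒪'] [IsDomain 𝒪'] [CharZero 𝒪']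
    (χ : CuspForm.heckeAlgebra N 2 (↑S : Set ℕ) →+* 𝒪') :
    ∃ (L : Type) (_ : Field L) (_ : Algebra (FractionRing 𝒪') L) (_ : Algebra 𝒪' L)
      (_ : IsScalarTower 𝒪' (FractionRing 𝒪') L) (_ : FiniteDimensional (FractionRing 𝒪') L)
      (c : Nat.Primes → L), (∀ r, IsIntegral 𝒪' (c r)) ∧
      (∀ (ℓ : ℕ) (hℓ : ℓ.Prime) (hℓN : ¬ ℓ ∣ N) (hℓS : ℓ ∉ (↑S : Set ℕ)),
        c ⟨ℓ, hℓ⟩ = algebraMap 𝒪' L (χ (CuspForm.heckeAlgebra.T hℓ hℓN hℓS))) ∧
      Module.finrank L (eigenLattice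
        (fun r : Nat.Primes => (tauPar ℤ ℤ N r r.2).baseChange L) c) = 2 :=
  h4_X0 N (pairEquivariant N) S 𝒪' χ

/-- **(H4)** for any family `τ'` conjugate to `tauPar` by an automorphism `w` of the lattice. -/
theorem h4_conj (S : Finset ℕ) (𝒪' : Type) [CommRing 𝒪'] [IsDomain 𝒪'] [CharZero 𝒪']
    (χ : CuspForm.heckeAlgebra N 2 (↑S : Set ℕ) →+* 𝒪')
    (τ' : Nat.Primes → Module.End ℤ (parabolicHoms ℤ (Gamma0 N) ℤ))
    (w : parabolicHoms ℤ (Gamma0 N) ℤ ≃ₗ[ℤ] parabolicHoms ℤ (Gamma0 N) ℤ)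
    (hw : ∀ (r : Nat.Primes) m, τ' r (w m) = w (tauPar ℤ ℤ N r r.2 m)) :
    ∃ (L : Type) (_ : Field L) (_ : Algebra (FractionRing 𝒪') L) (_ : Algebra 𝒪' L)
      (_ : IsScalarTower 𝒪' (FractionRing 𝒪') L) (_ : FiniteDimensional (FractionRing 𝒪') L)
      (c : Nat.Primes → L), (∀ r, IsIntegral 𝒪' (c r)) ∧
      (∀ (ℓ : ℕ) (hℓ : ℓ.Prime) (hℓN : ¬ ℓ ∣ N) (hℓS : ℓ ∉ (↑S : Set ℕ)),
        c ⟨ℓ, hℓ⟩ = algebraMap 𝒪' L (χ (CuspForm.heckeAlgebra.T hℓ hℓN hℓS))) ∧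
      Module.finrank L (eigenLattice (fun r : Nat.Primes => (τ' r).baseChange L) c) = 2 :=
  h4_X0_conj N (pairEquivariant N) S 𝒪' χ τ' w hw

end Fermat.Agent.S30.Eigen.H4Final
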