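import Mathlib

/-!
# J-4-E : from `ℂ` to `𝒪''` — eigenspace dimensions and extension of Hecke characters

Pure algebra (Mathlib only).

* `eigen f c` : simultaneous eigenspace of a family of endomorphisms
  (definitionally `⨅ i, ker (f i - c i • 1)`).
* `finrank_eigen_baseChange`, `finrank_eigen_baseChange_tower` : its dimension is invariant under
  extension of the base field.
* `finrank_charSpace_le_one`, `finrank_charSpace_eq_one` : multiplicity exactly one for every
  character, from a perfect pairing `(q, w) ↦ a₁ (ρ q w)`.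
* `linearIndependent_rhoW` : the lattice fact (`ℤ`-independent operators stay `ℂ`-independent).
* `finrank_eigen_eq_two` (Theorem A), `exists_extension` (Theorem B: characters extend along
  integral extensions), `exists_character_finrank_two` (Theorem C).
* `pairAlg τ T`, `exists_eigensystem_finrank_two` (Theorem D = (E1), the family form consumed by
  the S30 chain).
-/

set_option autoImplicit false

open scoped TensorProduct

namespace Fermat.Agent.S30.Eigen.Transfer

section Eigen

variable {R : Type*} [CommRing R] {V : Type*} [AddCommGroup V] [Module R V] {ι : Type*}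

/-- The simultaneous eigenspace of a family of endomorphisms `f i` with eigenvalues `c i`. -/
def eigen (f : ι → Module.End R V) (c : ι → R) : Submodule R V :=
  ⨅ i, LinearMap.ker (f i - c i • (1 : Module.End R V))

theorem mem_eigen {f : ι → Module.End R V} {c : ι → R} {x : V} :
    x ∈ eigen f c ↔ ∀ i, f i x = c i • x := by
  simp only [eigen, Submodule.mem_iInf, LinearMap.mem_ker, LinearMap.sub_apply,
    LinearMap.smul_apply, Module.End.one_apply, sub_eq_zero]

/-- Transport of simultaneous eigenspaces along a linear equivalence intertwining the families. -/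
theorem map_eigen {V' : Type*} [AddCommGroup V'] [Module R V'] (φ : V ≃ₗ[R] V')
    (f : ι → Module.End R V) (f' : ι → Module.End R V') (c : ι → R)
    (h : ∀ i x, φ (f i x) = f' i (φ x)) :
    (eigen f c).map (φ : V →ₗ[R] V') = eigen f' c := by
  ext y
  simp only [Submodule.mem_map, mem_eigen]
  constructor
  · rintro ⟨x, hx, rfl⟩ i
    rw [LinearEquiv.coe_coe, ← h, hx i, map_smul]
  · intro hy
    refine ⟨φ.symm y, fun i => ?_, by simp⟩
    apply φ.injective
    rw [h, map_smul, LinearEquiv.apply_symm_apply, hy i]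

theorem finrank_eigen_congr {V' : Type*} [AddCommGroup V'] [Module R V'] (φ : V ≃ₗ[R] V')
    (f : ι → Module.End R V) (f' : ι → Module.End R V') (c : ι → R)
    (h : ∀ i x, φ (f i x) = f' i (φ x)) :
    Module.finrank R (eigen f' c) = Module.finrank R (eigen f c) := by
  rw [← map_eigen φ f f' c h, LinearEquiv.finrank_map_eq]

end Eigen

section BaseChange

variable {F₀ F : Type*} [Field F₀] [Field F] [Algebra F₀ F]
  {V : Type*} [AddCommGroup V] [Module F₀ V] {ι : Type*}
  (f : ι → Module.End F₀ V) (c : ι → F₀)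

/-- The base change of the eigenspace inclusion. -/
noncomputable def eigenIncl : F ⊗[F₀] (eigen f c) →ₗ[F] F ⊗[F₀] V :=
  (eigen f c).subtype.baseChange F

theorem eigenIncl_injective : Function.Injective (eigenIncl (F := F) f c) := by
  rw [eigenIncl, LinearMap.baseChange_eq_ltensor]
  exact Module.Flat.lTensor_preserves_injective_linearMap _ (Submodule.injective_subtype _)

theorem range_eigenIncl :
    LinearMap.range (eigenIncl (F := F) f c) =
      eigen (fun i => (f i).baseChange F) (fun i => algebraMap F₀ F (c i)) := by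
  classical
  apply le_antisymm
  · rintro _ ⟨x, rfl⟩
    rw [mem_eigen]
    intro i
    induction x using TensorProduct.induction_on with
    | zero => simp
    | tmul z n =>
      have hn := (mem_eigen.1 n.2) i
      simp only [eigenIncl, LinearMap.baseChange_tmul, Submodule.subtype_apply]
      rw [hn, TensorProduct.tmul_smul, algebraMap_smul]
    | add x y hx hy =>
      simp only [map_add, smul_add, hx, hy]
  · intro x hx
    rw [mem_eigen] at hx
    let β := Module.Free.chooseBasis F₀ F
    let E := TensorProduct.equivFinsuppOfBasisLeft (N := V) β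
    -- `E` intertwines `g.baseChange` with `mapRange g`
    have hE : ∀ (g : Module.End F₀ V) (x : F ⊗[F₀] V) k, E (g.baseChange F x) k = g (E x k) := by
      intro g x k
      induction x using TensorProduct.induction_on with
      | zero => simp
      | tmul z n =>
        simp only [LinearMap.baseChange_tmul, E,
          TensorProduct.equivFinsuppOfBasisLeft_apply_tmul_apply, map_smul]
      | add x y hx hy =>
        simp only [map_add, Finsupp.add_apply, hx, hy]
    have hmem : ∀ k, E x k ∈ eigen f c := by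
      intro k
      rw [mem_eigen]
      intro i
      rw [← hE, hx i, algebraMap_smul, map_smul, Finsupp.smul_apply]
    -- reconstruct `x`
    have hx' : x = E.symm (E x) := (E.symm_apply_apply x).symm
    rw [hx', TensorProduct.equivFinsuppOfBasisLeft_symm_apply]
    refine Submodule.sum_mem _ fun k _ => ?_
    exact ⟨β k ⊗ₜ ⟨E x k, hmem k⟩, by simp [eigenIncl]⟩

/-- **Base change of simultaneous eigenspaces**: the dimension does not change under an
extension of the base field (arbitrary index set, arbitrary space). -/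
theorem finrank_eigen_baseChange :
    Module.finrank F (eigen (fun i => (f i).baseChange F) (fun i => algebraMap F₀ F (c i))) =
      Module.finrank F₀ (eigen f c) := by
  rw [← range_eigenIncl, LinearMap.finrank_range_of_inj (eigenIncl_injective f c),
    Module.finrank_baseChange]

end BaseChange

section BaseChangeTower

variable {R : Type*} [CommRing R] {F₀ F : Type*} [Field F₀] [Field F] [Algebra F₀ F]
  [Algebra R F₀] [Algebra R F] [IsScalarTower R F₀ F]
  {M : Type*} [AddCommGroup M] [Module R M] {ι : Type*}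
  (τ : ι → Module.End R M) (c : ι → F₀)

/-- **Base change in a tower** `R → F₀ → F`: for endomorphisms `τ i` of an `R`-module `M` and
eigenvalues `c i : F₀`, the eigenspaces in `F₀ ⊗[R] M` and in `F ⊗[R] M` have the same
dimension. -/
theorem finrank_eigen_baseChange_tower :
    Module.finrank F (eigen (fun i => (τ i).baseChange F) (fun i => algebraMap F₀ F (c i))) =
      Module.finrank F₀ (eigen (fun i => (τ i).baseChange F₀) c) := by
  rw [← finrank_eigen_baseChange (F := F) (fun i => (τ i).baseChange F₀) c]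
  refine finrank_eigen_congr
    (TensorProduct.AlgebraTensorModule.cancelBaseChange R F₀ F F M) _ _ _ ?_
  intro i x
  induction x using TensorProduct.induction_on with
  | zero => simp
  | tmul z y =>
    induction y using TensorProduct.induction_on with
    | zero => simp
    | tmul a m => simp
    | add y y' hy hy' => simp only [TensorProduct.tmul_add, map_add, hy, hy']
  | add x y hx hy => simp only [map_add, hx, hy]

end BaseChangeTower

section Duality

variable {k : Type*} [Field k] {Q : Type*} [CommRing Q]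
  {W : Type*} [AddCommGroup W] [Module k W] [FiniteDimensional k W]
  (ρ : Q →+* Module.End k W) (a₁ : W →ₗ[k] k)

/-- The eigenspace of a character `lam` of the commutative ring `Q` acting on `W` through `ρ`. -/
def charSpace (lam : Q →+* k) : Submodule k W :=
  eigen (fun q : Q => ρ q) (fun q => lam q)

omit [FiniteDimensional k W] in
theorem mem_charSpace {lam : Q →+* k} {w : W} :
    w ∈ charSpace ρ lam ↔ ∀ q, ρ q w = lam q • w := mem_eigen

omit [FiniteDimensional k W] in
include a₁ in
/-- Multiplicity at most one: `a₁` is injective on every character eigenspace. -/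
theorem finrank_charSpace_le_one (hpair : ∀ w, (∀ q, a₁ (ρ q w) = 0) → w = 0) (lam : Q →+* k) :
    Module.finrank k (charSpace ρ lam) ≤ 1 := by
  have hinj : Function.Injective (a₁.domRestrict (charSpace ρ lam)) := by
    rw [injective_iff_map_eq_zero]
    rintro ⟨w, hw⟩ h0
    rw [LinearMap.domRestrict_apply] at h0
    have : w = 0 := by
      apply hpair
      intro q
      rw [(mem_charSpace ρ).1 hw q, map_smul, h0, smul_zero]
    exact Subtype.ext this
  calc Module.finrank k (charSpace ρ lam) ≤ Module.finrank k k :=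
        LinearMap.finrank_le_finrank_of_injective hinj
    _ = 1 := Module.finrank_self k

/-- Multiplicity exactly one for **every** character of `Q`, from the perfect pairing
`(q, w) ↦ a₁ (ρ q w)`: `Q` has a `ℤ`-basis which stays linearly independent in `End W`
(lattice condition) and the pairing is non-degenerate on the `W` side. -/
theorem finrank_charSpace_eq_one {n : ℕ} (b : Module.Basis (Fin n) ℤ Q)
    (hb : LinearIndependent k (fun j => ρ (b j)))
    (hpair : ∀ w, (∀ q, a₁ (ρ q w) = 0) → w = 0) (lam : Q →+* k) :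
    Module.finrank k (charSpace ρ lam) = 1 := by
  classical
  refine le_antisymm (finrank_charSpace_le_one ρ a₁ hpair lam) ?_
  -- an additive map on `Q` is determined by its values on the basis
  have hext : ∀ g₁ g₂ : Q →+ k, (∀ j, g₁ (b j) = g₂ (b j)) → ∀ q, g₁ q = g₂ q := by
    intro g₁ g₂ h q
    have : g₁.toIntLinearMap = g₂.toIntLinearMap := b.ext (fun j => h j)
    exact congrArg (fun g : Q →ₗ[ℤ] k => g q) this
  -- the additive map `q ↦ a₁ (ρ q w)`
  let G : W → (Q →+ k) := fun w =>
    { toFun := fun q => a₁ (ρ q w)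
      map_zero' := by simp
      map_add' := fun q q' => by simp [map_add] }
  -- `Ψ : W → kⁿ`
  let Ψ : W →ₗ[k] (Fin n → k) := LinearMap.pi (fun j => a₁ ∘ₗ ρ (b j))
  have hΨ : Function.Injective Ψ := by
    rw [injective_iff_map_eq_zero]
    intro w hw
    apply hpair
    intro q
    have h0 : ∀ j, G w (b j) = (0 : Q →+ k) (b j) := by
      intro j
      have := congrFun hw j
      simpa [Ψ, G] using this
    exact hext (G w) 0 h0 q
  -- `Ψ' : kⁿ → W*`
  let S : (Fin n → k) →ₗ[k] Module.End k W := Fintype.linearCombination k (fun j => ρ (b j))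
  have hScomm : ∀ z q, S z * ρ q = ρ q * S z := by
    intro z q
    simp only [S, Fintype.linearCombination_apply, Finset.sum_mul, Finset.mul_sum]
    refine Finset.sum_congr rfl fun j _ => ?_
    rw [smul_mul_assoc, mul_smul_comm, ← map_mul, ← map_mul, mul_comm]
  let Ψ' : (Fin n → k) →ₗ[k] Module.Dual k W :=
    { toFun := fun z => a₁ ∘ₗ S z
      map_add' := fun z z' => by rw [map_add, LinearMap.comp_add]
      map_smul' := fun c z => by rw [map_smul, LinearMap.comp_smul, RingHom.id_apply] }
  have hΨ' : Function.Injective Ψ' := by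
    rw [injective_iff_map_eq_zero]
    intro z hz
    have hS : S z = 0 := by
      apply LinearMap.ext
      intro w
      apply hpair
      intro q
      have h1 : ρ q (S z w) = S z (ρ q w) := by
        have := congrArg (fun T : Module.End k W => T w) (hScomm z q)
        simpa [Module.End.mul_apply] using this.symm
      rw [h1]
      exact congrArg (fun φ : Module.Dual k W => φ (ρ q w)) hz
    have := (Fintype.linearIndependent_iff.1 hb) z (by
      simpa [S, Fintype.linearCombination_apply] using hS)
    exact funext this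
  -- dimension count
  have h1 : Module.finrank k W ≤ n := by
    simpa using LinearMap.finrank_le_finrank_of_injective hΨ
  have h2 : n ≤ Module.finrank k W := by
    have := LinearMap.finrank_le_finrank_of_injective hΨ'
    rwa [Subspace.dual_finrank_eq, Module.finrank_fin_fun] at this
  have hdim : Module.finrank k W = Module.finrank k (Fin n → k) := by
    rw [Module.finrank_fin_fun]; exact le_antisymm h1 h2
  have hsurj : Function.Surjective Ψ :=
    (LinearMap.injective_iff_surjective_of_finrank_eq_finrank hdim).1 hΨ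
  obtain ⟨w₀, hw₀⟩ := hsurj (fun j => lam (b j))
  -- `a₁ (ρ q w₀) = lam q` for all `q`
  have hlam : ∀ q, a₁ (ρ q w₀) = lam q := by
    have h0 : ∀ j, G w₀ (b j) = (lam : Q →+ k) (b j) := by
      intro j
      have := congrFun hw₀ j
      simpa [Ψ, G] using this
    exact hext (G w₀) (lam : Q →+ k) h0
  have hmem : w₀ ∈ charSpace ρ lam := by
    rw [mem_charSpace]
    intro q
    rw [← sub_eq_zero]
    apply hpair
    intro q'
    rw [map_sub, map_sub, map_smul, map_smul, ← Module.End.mul_apply, ← map_mul, hlam, hlam,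
      map_mul, smul_eq_mul]
    ring
  have hne : w₀ ≠ 0 := by
    intro h
    have := hlam 1
    rw [h, map_zero, map_zero, map_one] at this
    exact zero_ne_one this
  have hpos : 0 < Module.finrank k (charSpace ρ lam) :=
    Module.finrank_pos_iff_exists_ne_zero.2 ⟨⟨w₀, hmem⟩, fun h => hne (congrArg Subtype.val h)⟩
  exact hpos

end Duality

section Lattice

variable {Q : Type*} [CommRing Q]
  {M : Type*} [AddCommGroup M] [Module.Free ℤ M] [Module.Finite ℤ M]
  (ρM : Q →+* Module.End ℤ M)
  {W : Type*} [AddCommGroup W] [Module ℂ W]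
  (ρW : Q →+* Module.End ℂ W)
  (e : ℂ ⊗[ℤ] M ≃ₗ[ℂ] W × W)

/-- `S ↦ e⁻¹ ∘ (S × S) ∘ e`, as a linear map `End W → End (ℂ ⊗ M)`. -/
noncomputable def diagConj : Module.End ℂ W →ₗ[ℂ] Module.End ℂ (ℂ ⊗[ℤ] M) where
  toFun S := e.symm.toLinearMap ∘ₗ (S.prodMap S) ∘ₗ e.toLinearMap
  map_add' S S' := by
    apply LinearMap.ext
    intro x
    simp only [LinearMap.comp_apply, LinearEquiv.coe_coe, LinearMap.prodMap_apply,
      LinearMap.add_apply]
    rw [← map_add, Prod.mk_add_mk]
  map_smul' c S := by
    apply LinearMap.ext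
    intro x
    have h : (c • S).prodMap (c • S) (e x) = c • (S.prodMap S (e x)) := by
      ext <;> simp [LinearMap.prodMap_apply]
    show e.symm ((c • S).prodMap (c • S) (e x)) = c • e.symm (S.prodMap S (e x))
    rw [h, map_smul]

omit [Module.Free ℤ M] [Module.Finite ℤ M] in
theorem diagConj_apply (S : Module.End ℂ W) (x : ℂ ⊗[ℤ] M) :
    diagConj e S x = e.symm (Prod.map S S (e x)) := rfl

variable {ρM ρW e}

omit [Module.Free ℤ M] [Module.Finite ℤ M] in
theorem diagConj_rho (he : ∀ q x, e ((ρM q).baseChange ℂ x) = Prod.map (ρW q) (ρW q) (e x))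
    (q : Q) : diagConj e (ρW q) = (ρM q).baseChange ℂ := by
  apply LinearMap.ext
  intro x
  rw [diagConj_apply, ← he, LinearEquiv.symm_apply_apply]

/-- **Lattice fact**: a `ℤ`-linearly independent family of `Q` (acting faithfully on the finite
free `ℤ`-module `M`) stays `ℂ`-linearly independent in `End W`. -/
theorem linearIndependent_rhoW (hρM : Function.Injective ρM)
    (he : ∀ q x, e ((ρM q).baseChange ℂ x) = Prod.map (ρW q) (ρW q) (e x))
    {κ : Type*} {b : κ → Q} (hb : LinearIndependent ℤ b) :
    LinearIndependent ℂ (fun j => ρW (b j)) := by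
  have : Module.FinitePresentation ℤ M := Module.finitePresentation_of_projective ℤ M
  have h1 : LinearIndependent ℤ (fun j => ρM (b j)) := by
    have := hb.map' (ρM : Q →+ Module.End ℤ M).toIntLinearMap (by
      rw [LinearMap.ker_eq_bot]
      exact hρM)
    exact this
  have h2 : LinearIndependent ℂ (fun j => (1 : ℂ) ⊗ₜ[ℤ] ρM (b j)) :=
    Module.Flat.linearIndependent_one_tmul h1
  have hbc := Module.FinitePresentation.isBaseChange_map ℤ M M ℂ
  have h3 : LinearIndependent ℂ (fun j => (ρM (b j)).baseChange ℂ) := by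
    have := h2.map' hbc.equiv.toLinearMap (LinearMap.ker_eq_bot.2 hbc.equiv.injective)
    have heq : (⇑hbc.equiv.toLinearMap ∘ fun j => (1 : ℂ) ⊗ₜ[ℤ] ρM (b j)) =
        fun j => (ρM (b j)).baseChange ℂ := by
      funext j
      simp only [Function.comp_apply, LinearEquiv.coe_coe, hbc.equiv_tmul, one_smul,
        LinearMap.baseChangeHom_apply]
    rwa [heq] at this
  have h4 : LinearIndependent ℂ (⇑(diagConj e) ∘ fun j => ρW (b j)) := by
    have heq : (⇑(diagConj e) ∘ fun j => ρW (b j)) = fun j => (ρM (b j)).baseChange ℂ := by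
      funext j
      exact diagConj_rho he (b j)
    rw [heq]
    exact h3
  exact LinearIndependent.of_comp (diagConj e) h4

end Lattice

section ProdSub

variable {R : Type*} [Ring R] {V V' : Type*} [AddCommGroup V] [Module R V]
  [AddCommGroup V'] [Module R V']

/-- `p.prod q ≃ p × q`. -/
def prodSubEquiv (p : Submodule R V) (q : Submodule R V') : (p.prod q) ≃ₗ[R] p × q where
  toFun x := (⟨x.1.1, x.2.1⟩, ⟨x.1.2, x.2.2⟩)
  invFun y := ⟨(y.1.1, y.2.1), ⟨y.1.2, y.2.2⟩⟩
  map_add' _ _ := rfl
  map_smul' _ _ := rfl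
  left_inv _ := rfl
  right_inv _ := rfl

end ProdSub

section TheoremA

variable {Q : Type*} [CommRing Q] [Module.Finite ℤ Q] [Module.Free ℤ Q]
  {M : Type*} [AddCommGroup M] [Module.Free ℤ M] [Module.Finite ℤ M]
  {ρM : Q →+* Module.End ℤ M}
  {W : Type*} [AddCommGroup W] [Module ℂ W] [FiniteDimensional ℂ W]
  {ρW : Q →+* Module.End ℂ W}
  {e : ℂ ⊗[ℤ] M ≃ₗ[ℂ] W × W}
  {a₁ : W →ₗ[ℂ] ℂ}

/-- Over `ℂ`: every character eigenspace of `ℂ ⊗ M ≃ W × W` has dimension exactly `2`. -/
theorem finrank_eigen_complex (hρM : Function.Injective ρM)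
    (he : ∀ q x, e ((ρM q).baseChange ℂ x) = Prod.map (ρW q) (ρW q) (e x))
    (hpair : ∀ w, (∀ q, a₁ (ρW q w) = 0) → w = 0) (lam : Q →+* ℂ) :
    Module.finrank ℂ (eigen (fun q : Q => (ρM q).baseChange ℂ) (fun q => lam q)) = 2 := by
  classical
  have hone : Module.finrank ℂ (charSpace ρW lam) = 1 := by
    let b := Module.finBasis ℤ Q
    exact finrank_charSpace_eq_one ρW a₁ b
      (linearIndependent_rhoW hρM he b.linearIndependent) hpair lam
  rw [finrank_eigen_congr e.symm (fun q : Q => (ρW q).prodMap (ρW q)) _ (fun q => lam q)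
    (fun q y => by
      have := he q (e.symm y)
      rw [LinearEquiv.apply_symm_apply] at this
      show e.symm (Prod.map (ρW q) (ρW q) y) = _
      rw [← this, LinearEquiv.symm_apply_apply])]
  have hprod : eigen (fun q : Q => (ρW q).prodMap (ρW q)) (fun q => lam q) =
      (charSpace ρW lam).prod (charSpace ρW lam) := by
    ext ⟨w₁, w₂⟩
    simp only [mem_eigen, Submodule.mem_prod, mem_charSpace, LinearMap.prodMap_apply,
      Prod.smul_mk, Prod.mk.injEq]
    exact ⟨fun h => ⟨fun q => (h q).1, fun q => (h q).2⟩, fun h q => ⟨h.1 q, h.2 q⟩⟩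
  rw [hprod, (prodSubEquiv _ _).finrank_eq, Module.finrank_prod, hone]

/-- **Theorem A.**  For every field `F` of characteristic zero and every ring homomorphism
`χ : Q → F`, the `χ`-eigenspace of `F ⊗ M` has dimension exactly `2`. -/
theorem finrank_eigen_eq_two (hρM : Function.Injective ρM)
    (he : ∀ q x, e ((ρM q).baseChange ℂ x) = Prod.map (ρW q) (ρW q) (e x))
    (hpair : ∀ w, (∀ q, a₁ (ρW q w) = 0) → w = 0)
    {F : Type*} [Field F] [CharZero F] (χ : Q →+* F) :
    Module.finrank F (eigen (fun q : Q => (ρM q).baseChange F) (fun q => χ q)) = 2 := by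
  classical
  let F₀ : IntermediateField ℚ F := IntermediateField.adjoin ℚ (Set.range χ)
  have hint : ∀ q, IsIntegral ℤ (χ q) := fun q =>
    map_isIntegral_int χ ((Algebra.IsIntegral.of_finite ℤ Q).isIntegral q)
  have : Algebra.IsAlgebraic ℚ F₀ := IntermediateField.isAlgebraic_adjoin (by
    rintro _ ⟨q, rfl⟩
    exact (hint q).tower_top)
  let σ : F₀ →ₐ[ℚ] ℂ := IsAlgClosed.lift
  let χ₀ : Q →+* F₀ := χ.codRestrict F₀ (fun q => IntermediateField.subset_adjoin _ _ ⟨q, rfl⟩)
  let lam : Q →+* ℂ := (σ : F₀ →+* ℂ).comp χ₀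
  have h1 := finrank_eigen_baseChange_tower (R := ℤ) (F₀ := F₀) (F := F)
    (fun q : Q => ρM q) (fun q => χ₀ q)
  let _ : Algebra F₀ ℂ := σ.toRingHom.toAlgebra
  have h2 := finrank_eigen_baseChange_tower (R := ℤ) (F₀ := F₀) (F := ℂ)
    (fun q : Q => ρM q) (fun q => χ₀ q)
  have h3 := finrank_eigen_complex hρM he hpair lam
  calc Module.finrank F (eigen (fun q : Q => (ρM q).baseChange F) (fun q => χ q))
      = Module.finrank F₀ (eigen (fun q : Q => (ρM q).baseChange F₀) (fun q => χ₀ q)) := h1
    _ = Module.finrank ℂ (eigen (fun q : Q => (ρM q).baseChange ℂ) (fun q => lam q)) := h2.symm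
    _ = 2 := h3

end TheoremA

section Extension

/-- **Theorem B (extension of characters along integral extensions).**  If `Q` is integral over
`A`, every ring homomorphism from `A` to an algebraically closed field which kills the kernel of
`A → Q` extends to `Q` (lying-over + `IsAlgClosed.lift`). -/
theorem exists_extension {A Q : Type*} [CommRing A] [CommRing Q] [Algebra A Q]
    [Algebra.IsIntegral A Q] {Ω : Type*} [Field Ω] [IsAlgClosed Ω] (χ₀ : A →+* Ω)
    (hker : RingHom.ker (algebraMap A Q) ≤ RingHom.ker χ₀) :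
    ∃ χ : Q →+* Ω, ∀ a : A, χ (algebraMap A Q a) = χ₀ a := by
  classical
  have hp : (RingHom.ker χ₀).IsPrime := RingHom.ker_isPrime χ₀
  obtain ⟨P, -, hPprime, hPp⟩ :=
    Ideal.exists_ideal_over_prime_of_isIntegral (RingHom.ker χ₀) (⊥ : Ideal Q) (by
      intro x hx
      apply hker
      rw [RingHom.mem_ker]
      exact (Submodule.mem_bot Q).1 (Ideal.mem_comap.1 hx))
  have hcomapPrime : (P.comap (algebraMap A Q)).IsPrime := Ideal.comap_isPrime _ P
  -- the induced injective map on the quotient
  let χ₀' : (A ⧸ P.comap (algebraMap A Q)) →+* Ω :=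
    Ideal.Quotient.lift _ χ₀ (fun a ha => by rw [hPp] at ha; exact ha)
  have hχ₀' : Function.Injective χ₀' := by
    rw [injective_iff_map_eq_zero]
    intro x hx
    obtain ⟨a, rfl⟩ := Ideal.Quotient.mk_surjective x
    have hx' : χ₀ a = 0 := hx
    rw [Ideal.Quotient.eq_zero_iff_mem, hPp]
    exact hx'
  let _ : Algebra (A ⧸ P.comap (algebraMap A Q)) Ω := χ₀'.toAlgebra
  have h1 : Module.IsTorsionFree (A ⧸ P.comap (algebraMap A Q)) (Q ⧸ P) :=
    Module.isTorsionFree_iff_algebraMap_injective.2 Ideal.algebraMap_quotient_injective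
  have h2 : Module.IsTorsionFree (A ⧸ P.comap (algebraMap A Q)) Ω :=
    Module.isTorsionFree_iff_algebraMap_injective.2 hχ₀'
  have h3 : Algebra.IsAlgebraic (A ⧸ P.comap (algebraMap A Q)) (Q ⧸ P) :=
    Algebra.IsIntegral.isAlgebraic
  let ψ : (Q ⧸ P) →ₐ[A ⧸ P.comap (algebraMap A Q)] Ω := IsAlgClosed.lift
  refine ⟨(ψ : (Q ⧸ P) →+* Ω).comp (Ideal.Quotient.mk P), fun a => ?_⟩
  have : Ideal.Quotient.mk P (algebraMap A Q a) =
      algebraMap (A ⧸ P.comap (algebraMap A Q)) (Q ⧸ P) (Ideal.Quotient.mk _ a) := rfl
  rw [RingHom.comp_apply, this]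
  exact (ψ.commutes _).trans (Ideal.Quotient.lift_mk _ _ _)

end Extension

section TheoremC

variable {Q : Type*} [CommRing Q] [Module.Finite ℤ Q] [Module.Free ℤ Q]
  {M : Type*} [AddCommGroup M] [Module.Free ℤ M] [Module.Finite ℤ M]
  {ρM : Q →+* Module.End ℤ M}
  {W : Type*} [AddCommGroup W] [Module ℂ W] [FiniteDimensional ℂ W]
  {ρW : Q →+* Module.End ℂ W}
  {e : ℂ ⊗[ℤ] M ≃ₗ[ℂ] W × W}
  {a₁ : W →ₗ[ℂ] ℂ}

/-- **Theorem C.**  A character `χ₀` of a subalgebra `Q₀ ⊆ Q` with values in a domain `𝒪'` of
characteristic zero extends to a character `χ` of `Q` with values in a finite extension `L` of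
`K = Frac 𝒪'`; the values of `χ` are integral over `𝒪'` and the `χ`-eigenspace of `L ⊗ M` has
dimension exactly `2`. -/
theorem exists_character_finrank_two (hρM : Function.Injective ρM)
    (he : ∀ q x, e ((ρM q).baseChange ℂ x) = Prod.map (ρW q) (ρW q) (e x))
    (hpair : ∀ w, (∀ q, a₁ (ρW q w) = 0) → w = 0)
    (Q₀ : Subalgebra ℤ Q)
    {𝒪' : Type*} [CommRing 𝒪'] [IsDomain 𝒪'] [CharZero 𝒪']
    {K : Type*} [Field K] [Algebra 𝒪' K] [IsFractionRing 𝒪' K]
    (χ₀ : Q₀ →+* 𝒪') :
    ∃ (L : IntermediateField K (AlgebraicClosure K)) (_ : FiniteDimensional K L)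
      (χ : Q →+* L),
      (∀ x : Q₀, χ x = algebraMap 𝒪' L (χ₀ x)) ∧ (∀ q, IsIntegral 𝒪' (χ q)) ∧
      Module.finrank L (eigen (fun q : Q => (ρM q).baseChange L) (fun q => χ q)) = 2 := by
  classical
  have hK0 : CharZero K := charZero_of_injective_algebraMap (IsFractionRing.injective 𝒪' K)
  -- integrality of `Q` over `Q₀`
  have hintZ : Algebra.IsIntegral ℤ Q := Algebra.IsIntegral.of_finite ℤ Q
  have hintQ₀ : Algebra.IsIntegral Q₀ Q := Algebra.IsIntegral.tower_top (R := ℤ)
  -- extend to the algebraic closure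
  obtain ⟨χΩ, hχΩ⟩ := exists_extension (A := Q₀) (Q := Q) (Ω := AlgebraicClosure K)
    ((algebraMap 𝒪' (AlgebraicClosure K)).comp χ₀) (by
      intro x hx
      have : x = 0 := by
        apply Subtype.ext
        simpa using hx
      rw [this]
      exact Ideal.zero_mem _)
  have hintΩ : ∀ q, IsIntegral ℤ (χΩ q) := fun q =>
    map_isIntegral_int χΩ (hintZ.isIntegral q)
  -- the finite extension generated by the values on a ℤ-basis
  let b := Module.finBasis ℤ Q
  let L : IntermediateField K (AlgebraicClosure K) :=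
    IntermediateField.adjoin K (Set.range fun j => χΩ (b j))
  have hfinS : Finite ↑(Set.range fun j => χΩ (b j)) := (Set.finite_range _).to_subtype
  have hLfin : FiniteDimensional K L := IntermediateField.finiteDimensional_adjoin (by
    rintro _ ⟨j, rfl⟩
    exact (hintΩ (b j)).tower_top)
  have hmem : ∀ q, χΩ q ∈ L := by
    intro q
    rw [← b.sum_repr q, map_sum]
    refine L.sum_mem fun j _ => ?_
    rw [map_zsmul]
    have hj : χΩ (b j) ∈ L :=
      IntermediateField.subset_adjoin K _ (Set.mem_range_self (f := fun j => χΩ (b j)) j)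
    exact zsmul_mem hj _
  let χ : Q →+* L := χΩ.codRestrict L hmem
  refine ⟨L, hLfin, χ, fun x => ?_, fun q => ?_, ?_⟩
  · apply Subtype.ext
    have h1 : ((χ x : L) : AlgebraicClosure K) = χΩ x := rfl
    rw [h1]
    have h2 := hχΩ x
    rw [RingHom.comp_apply] at h2
    rw [show ((x : Q)) = algebraMap Q₀ Q x from rfl, h2]
    rfl
  · have h1 : IsIntegral ℤ (χ q) := map_isIntegral_int χ (hintZ.isIntegral q)
    exact h1.tower_top
  · exact finrank_eigen_eq_two hρM he hpair χ

end TheoremC

section PairAlgebra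

variable {ι : Type*}
  {M : Type*} [AddCommGroup M]
  (τ : ι → Module.End ℤ M)
  {W : Type*} [AddCommGroup W] [Module ℂ W]
  (T : ι → Module.End ℂ W)

/-- The generators `(τ i, T i)` of the pair algebra. -/
def gen (i : ι) : Module.End ℤ M × Module.End ℂ W := (τ i, T i)

/-- The `ℤ`-subalgebra of `End M × End W` generated by the pairs `(τ i, T i)`.  Both projections
are ring homomorphisms, which is how the Hecke algebra acts on both sides at once. -/
def pairAlg : Subalgebra ℤ (Module.End ℤ M × Module.End ℂ W) :=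
  Algebra.adjoin ℤ (Set.range (gen τ T))

theorem gen_mem (i : ι) : gen τ T i ∈ pairAlg τ T :=
  Algebra.subset_adjoin ⟨i, rfl⟩

variable {τ T}

/-- The intertwining relation propagates from the generators to the whole pair algebra. -/
theorem he_pairAlg {e : ℂ ⊗[ℤ] M ≃ₗ[ℂ] W × W}
    (he : ∀ i x, e ((τ i).baseChange ℂ x) = Prod.map (T i) (T i) (e x))
    {p : Module.End ℤ M × Module.End ℂ W} (hp : p ∈ pairAlg τ T) (x : ℂ ⊗[ℤ] M) :
    e (p.1.baseChange ℂ x) = Prod.map p.2 p.2 (e x) := by
  induction hp using Algebra.adjoin_induction generalizing x with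
  | mem p hp =>
    obtain ⟨i, rfl⟩ := hp
    exact he i x
  | algebraMap r =>
    have h1 : ((algebraMap ℤ (Module.End ℤ M × Module.End ℂ W) r).1).baseChange ℂ x = r • x := by
      rw [Prod.algebraMap_apply]
      simp only [Algebra.algebraMap_eq_smul_one, LinearMap.baseChange_smul,
        LinearMap.baseChange_one, LinearMap.smul_apply, Module.End.one_apply]
    rw [h1, map_zsmul]
    ext <;> simp
  | add p p' _ _ hp hp' =>
    have h1 : (p + p').1.baseChange ℂ x = p.1.baseChange ℂ x + p'.1.baseChange ℂ x := by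
      rw [Prod.fst_add, LinearMap.baseChange_add, LinearMap.add_apply]
    rw [h1, map_add, hp, hp']
    ext <;> simp
  | mul p p' _ _ hp hp' =>
    have h1 : (p * p').1.baseChange ℂ x = p.1.baseChange ℂ (p'.1.baseChange ℂ x) := by
      rw [Prod.fst_mul, LinearMap.baseChange_mul, Module.End.mul_apply]
    rw [h1, hp, hp']
    ext <;> simp

/-- If two endomorphisms of `M` are intertwined with the same diagonal endomorphism of `W × W`,
they are equal (`M` is free). -/
theorem eq_of_intertwine [Module.Free ℤ M] {e : ℂ ⊗[ℤ] M ≃ₗ[ℂ] W × W} {t t' : Module.End ℤ M}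
    {S : Module.End ℂ W}
    (h : ∀ x, e (t.baseChange ℂ x) = Prod.map S S (e x))
    (h' : ∀ x, e (t'.baseChange ℂ x) = Prod.map S S (e x)) : t = t' := by
  apply LinearMap.baseChangeHom_injective ℤ M ℂ
  apply LinearMap.ext
  intro x
  apply e.injective
  simp only [LinearMap.baseChangeHom_apply]
  rw [h, h']

/-- The first projection is injective on the pair algebra. -/
theorem fst_injective_pairAlg {e : ℂ ⊗[ℤ] M ≃ₗ[ℂ] W × W}
    (he : ∀ i x, e ((τ i).baseChange ℂ x) = Prod.map (T i) (T i) (e x))
    {p p' : Module.End ℤ M × Module.End ℂ W} (hp : p ∈ pairAlg τ T) (hp' : p' ∈ pairAlg τ T)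
    (h : p.1 = p'.1) : p = p' := by
  refine Prod.ext h ?_
  apply LinearMap.ext
  intro w
  have h1 := he_pairAlg he hp (e.symm (w, 0))
  have h2 := he_pairAlg he hp' (e.symm (w, 0))
  rw [h, h2, LinearEquiv.apply_symm_apply] at h1
  exact (congrArg Prod.fst h1).symm

/-- The generators of the pair algebra commute as soon as the `T i` do. -/
theorem gen_commute [Module.Free ℤ M] {e : ℂ ⊗[ℤ] M ≃ₗ[ℂ] W × W}
    (he : ∀ i x, e ((τ i).baseChange ℂ x) = Prod.map (T i) (T i) (e x))
    (hT : ∀ i j, T i * T j = T j * T i) (i j : ι) :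
    gen τ T i * gen τ T j = gen τ T j * gen τ T i := by
  have hij := he_pairAlg he ((pairAlg τ T).mul_mem (gen_mem τ T i) (gen_mem τ T j))
  have hji := he_pairAlg he ((pairAlg τ T).mul_mem (gen_mem τ T j) (gen_mem τ T i))
  refine Prod.ext ?_ (hT i j)
  refine eq_of_intertwine (S := T i * T j) (e := e) (fun x => hij x) (fun x => ?_)
  rw [hT i j]
  exact hji x

section Anemic

variable (τ T)

/-- The second projection of the pair algebra is onto the algebra generated by the `T i`. -/
theorem exists_snd_eq {b : Module.End ℂ W} (hb : b ∈ Algebra.adjoin ℤ (Set.range T)) :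
    ∃ q : pairAlg τ T, (q : Module.End ℤ M × Module.End ℂ W).2 = b := by
  have h1 : (pairAlg τ T).map (AlgHom.snd ℤ (Module.End ℤ M) (Module.End ℂ W)) =
      Algebra.adjoin ℤ (Set.range T) := by
    rw [pairAlg, AlgHom.map_adjoin, ← Set.range_comp]
    rfl
  rw [← h1] at hb
  obtain ⟨p, hp, rfl⟩ := hb
  exact ⟨⟨p, hp⟩, rfl⟩

/-- The generators as elements of the pair algebra. -/
def genQ (i : ι) : pairAlg τ T := ⟨gen τ T i, gen_mem τ T i⟩

/-- The subalgebra of the pair algebra generated by the generators with index in `I₀`. -/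
def anemic (I₀ : Set ι) : Subalgebra ℤ (pairAlg τ T) := Algebra.adjoin ℤ (genQ τ T '' I₀)

theorem snd_mem_of_mem_anemic (I₀ : Set ι) {x : pairAlg τ T} (hx : x ∈ anemic τ T I₀) :
    (x : Module.End ℤ M × Module.End ℂ W).2 ∈ Algebra.adjoin ℤ (T '' I₀) := by
  induction hx using Algebra.adjoin_induction with
  | mem x hx =>
    obtain ⟨i, hi, rfl⟩ := hx
    exact Algebra.subset_adjoin ⟨i, hi, rfl⟩
  | algebraMap r => exact Subalgebra.algebraMap_mem _ r
  | add x y _ _ hx hy => exact Subalgebra.add_mem _ hx hy
  | mul x y _ _ hx hy => exact Subalgebra.mul_mem _ hx hy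

/-- The ring homomorphism from the anemic part of the pair algebra to the algebra generated by
the `T i`, `i ∈ I₀`. -/
def anemicHom (I₀ : Set ι) : anemic τ T I₀ →+* Algebra.adjoin ℤ (T '' I₀) :=
  RingHom.codRestrict
    (((RingHom.snd (Module.End ℤ M) (Module.End ℂ W)).comp (pairAlg τ T).val.toRingHom).comp
      (anemic τ T I₀).val.toRingHom)
    (Algebra.adjoin ℤ (T '' I₀)) (fun x => snd_mem_of_mem_anemic τ T I₀ x.2)

theorem anemicHom_genQ (I₀ : Set ι) {i : ι} (hi : i ∈ I₀) :
    anemicHom τ T I₀ ⟨genQ τ T i, Algebra.subset_adjoin ⟨i, hi, rfl⟩⟩ =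
      ⟨T i, Algebra.subset_adjoin ⟨i, hi, rfl⟩⟩ := rfl

/-- Eigenvectors for the generators are eigenvectors for the whole pair algebra. -/
theorem eigen_pairAlg_eq {L : Type*} [Field L] (χ : pairAlg τ T →+* L) :
    eigen (fun q : pairAlg τ T =>
        ((q : Module.End ℤ M × Module.End ℂ W).1).baseChange L) (fun q => χ q) =
      eigen (fun i => (τ i).baseChange L) (fun i => χ (genQ τ T i)) := by
  ext x
  simp only [mem_eigen]
  constructor
  · intro h i
    exact h (genQ τ T i)
  · rintro h ⟨p, hp⟩
    induction hp using Algebra.adjoin_induction with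
    | mem p hp =>
      obtain ⟨i, rfl⟩ := hp
      exact h i
    | algebraMap r =>
      have h1 : ((algebraMap ℤ (Module.End ℤ M × Module.End ℂ W) r).1).baseChange L x =
          r • x := by
        rw [Prod.algebraMap_apply]
        simp only [Algebra.algebraMap_eq_smul_one, LinearMap.baseChange_smul,
          LinearMap.baseChange_one, LinearMap.smul_apply, Module.End.one_apply]
      have h2 : χ ⟨algebraMap ℤ (Module.End ℤ M × Module.End ℂ W) r,
          Subalgebra.algebraMap_mem _ r⟩ = (r : L) := by
        have : (⟨algebraMap ℤ (Module.End ℤ M × Module.End ℂ W) r,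
            Subalgebra.algebraMap_mem _ r⟩ : pairAlg τ T) = ((r : ℤ) : pairAlg τ T) := by
          apply Subtype.ext
          simp
        rw [this, map_intCast]
      rw [h1]
      show r • x = χ _ • x
      rw [h2]
      exact (Int.cast_smul_eq_zsmul L r x).symm
    | add p p' hp hp' ih ih' =>
      have h1 : (p + p').1.baseChange L x = p.1.baseChange L x + p'.1.baseChange L x := by
        rw [Prod.fst_add, LinearMap.baseChange_add, LinearMap.add_apply]
      have h2 : (⟨p + p', Subalgebra.add_mem _ hp hp'⟩ : pairAlg τ T) =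
          ⟨p, hp⟩ + ⟨p', hp'⟩ := rfl
      show (p + p').1.baseChange L x = χ _ • x
      rw [h1, h2, map_add, add_smul]
      exact congrArg₂ (· + ·) ih ih'
    | mul p p' hp hp' ih ih' =>
      have h1 : (p * p').1.baseChange L x = p.1.baseChange L (p'.1.baseChange L x) := by
        rw [Prod.fst_mul, LinearMap.baseChange_mul, Module.End.mul_apply]
      have h2 : (⟨p * p', Subalgebra.mul_mem _ hp hp'⟩ : pairAlg τ T) =
          ⟨p, hp⟩ * ⟨p', hp'⟩ := rfl
      show (p * p').1.baseChange L x = χ _ • x
      have ihb : p'.1.baseChange L x = χ ⟨p', hp'⟩ • x := ih'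
      have iha : p.1.baseChange L x = χ ⟨p, hp⟩ • x := ih
      rw [h1, h2, map_mul, ihb, map_smul, iha, smul_smul, mul_comm]

end Anemic

end PairAlgebra


section TheoremD

variable {ι : Type*}
  {M : Type*} [AddCommGroup M] [Module.Free ℤ M] [Module.Finite ℤ M]
  {τ : ι → Module.End ℤ M}
  {W : Type*} [AddCommGroup W] [Module ℂ W] [FiniteDimensional ℂ W]
  {T : ι → Module.End ℂ W}
  {e : ℂ ⊗[ℤ] M ≃ₗ[ℂ] W × W}
  {a₁ : W →ₗ[ℂ] ℂ}

/-- **Theorem D = (E1), family form.**

* `M` : a finite free `ℤ`-module with endomorphisms `τ i` (the integral parabolic lattice with the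
  double-coset Hecke operators);
* `W` : a finite-dimensional `ℂ`-space with pairwise commuting endomorphisms `T i` (`S₂(Γ₀(N))`
  with `T_r` / `U_r`);
* `e : ℂ ⊗ M ≃ W × W` intertwining `τ i` with `T i × T i` (Eichler–Shimura);
* `a₁` with the `q`-expansion principle `hpair`;
* `χ` a character of the subalgebra generated by the `T i`, `i ∈ I₀`, with values in a domain
  `𝒪'` of characteristic zero with fraction field `K`.

Then there are a finite extension `L / K` and eigenvalues `c i ∈ L`, integral over `𝒪'`, extending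
`χ`, such that the simultaneous eigenspace of the `τ i` in `L ⊗ M` has dimension exactly `2`. -/
theorem exists_eigensystem_finrank_two
    (he : ∀ i x, e ((τ i).baseChange ℂ x) = Prod.map (T i) (T i) (e x))
    (hT : ∀ i j, T i * T j = T j * T i)
    (hpair : ∀ w, (∀ b ∈ Algebra.adjoin ℤ (Set.range T), a₁ (b w) = 0) → w = 0)
    (I₀ : Set ι)
    {𝒪' : Type*} [CommRing 𝒪'] [IsDomain 𝒪'] [CharZero 𝒪']
    {K : Type*} [Field K] [Algebra 𝒪' K] [IsFractionRing 𝒪' K]
    (χ : Algebra.adjoin ℤ (T '' I₀) →+* 𝒪') :
    ∃ (L : IntermediateField K (AlgebraicClosure K)) (_ : FiniteDimensional K L) (c : ι → L),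
      (∀ i (hi : i ∈ I₀),
        c i = algebraMap 𝒪' L (χ ⟨T i, Algebra.subset_adjoin ⟨i, hi, rfl⟩⟩)) ∧
      (∀ i, IsIntegral 𝒪' (c i)) ∧
      Module.finrank L (eigen (fun i => (τ i).baseChange L) c) = 2 := by
  classical
  have hcomm : ∀ a b : pairAlg τ T, a * b = b * a := by
    have h := Algebra.isMulCommutative_adjoin ℤ (s := Set.range (gen τ T)) (by
      rintro _ ⟨i, rfl⟩ _ ⟨j, rfl⟩
      exact gen_commute he hT i j)
    exact fun a b => h.is_comm.comm a b
  let _ : CommRing (pairAlg τ T) := { (inferInstance : Ring (pairAlg τ T)) with mul_comm := hcomm }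
  let ρM : pairAlg τ T →+* Module.End ℤ M :=
    (RingHom.fst _ _).comp (pairAlg τ T).val.toRingHom
  let ρW : pairAlg τ T →+* Module.End ℂ W :=
    (RingHom.snd _ _).comp (pairAlg τ T).val.toRingHom
  have hρM : Function.Injective ρM := fun p p' h =>
    Subtype.ext (fst_injective_pairAlg he p.2 p'.2 h)
  have heQ : ∀ (q : pairAlg τ T) x,
      e ((ρM q).baseChange ℂ x) = Prod.map (ρW q) (ρW q) (e x) := fun q x => he_pairAlg he q.2 x
  have hfin : Module.Finite ℤ (pairAlg τ T) :=
    Module.Finite.of_injective ((ρM : pairAlg τ T →+ Module.End ℤ M).toIntLinearMap) hρM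
  have htf : Module.IsTorsionFree ℤ (pairAlg τ T) :=
    Function.Injective.moduleIsTorsionFree ρM hρM (fun r m => map_zsmul ρM r m)
  have hfree : Module.Free ℤ (pairAlg τ T) := Module.free_of_finite_type_torsion_free'
  have hpairQ : ∀ w, (∀ q : pairAlg τ T, a₁ (ρW q w) = 0) → w = 0 := by
    intro w hw
    apply hpair
    intro b hb
    obtain ⟨q, rfl⟩ := exists_snd_eq τ T hb
    exact hw q
  obtain ⟨L, hL, χL, h1, h2, h3⟩ :=
    exists_character_finrank_two (K := K) hρM heQ hpairQ (anemic τ T I₀)
      (χ.comp (anemicHom τ T I₀))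
  refine ⟨L, hL, fun i => χL (genQ τ T i), fun i hi => ?_, fun i => h2 _, ?_⟩
  · have := h1 ⟨genQ τ T i, Algebra.subset_adjoin ⟨i, hi, rfl⟩⟩
    refine this.trans ?_
    rw [RingHom.comp_apply, anemicHom_genQ τ T I₀ hi]
  · have h4 := eigen_pairAlg_eq τ T χL
    exact (congrArg (fun S : Submodule L (L ⊗[ℤ] M) => Module.finrank L S) h4).symm.trans h3

end TheoremD

end Fermat.Agent.S30.Eigen.Transfer
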