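import Fermat.Agent.S30.Eigen.X0
import Fermat.Agent.S30.Padic.EigenLattice

/-!
# J-4-E : the input `(H4)` of `Final/Chain.s30_of_inputs`, verbatim

`h4_of_intertwine` : from an integral lattice `M` with operators `τ r` (all primes `r`) and an
isomorphism `e : ℂ ⊗ M ≃ S₂(Γ₀(N)) × S₂(Γ₀(N))` intertwining `τ r` with `Tr N 2 r × Tr N 2 r`
(`Tr` = the Prelude `heckeTLin 2` for `r ∤ N`, the Prelude `heckeULin 2` for `r ∣ N`), the
hypothesis `(H4)` of `Fermat.Agent.S30.Final.Chain.s30_of_inputs` in exactly its shape.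

`finrank_eigenLattice_conj` : the joint eigenspace does not change dimension when the whole
family is conjugated by an automorphism of the lattice (Fricke conjugation `τ* r = w τ r w⁻¹`).
-/

set_option autoImplicit false

open scoped TensorProduct
open CongruenceSubgroup

namespace Fermat.Agent.S30.Eigen.H4

open Fermat.Agent.S30.Eigen.Transfer Fermat.Agent.S30.Eigen.MultOne Fermat.Agent.S30.Eigen.X0
open Fermat.Agent.S30.Padic.EigenLattice

/-- `Transfer.eigen` and `EigenLattice.eigenLattice` are the same submodule. -/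
theorem eigen_eq_eigenLattice {R : Type*} [CommRing R] {V : Type*} [AddCommGroup V] [Module R V]
    {ι : Type*} (f : ι → Module.End R V) (c : ι → R) : eigen f c = eigenLattice f c := rfl

/-- **(H4)** of `Final/Chain.s30_of_inputs`, verbatim. -/
theorem h4_of_intertwine (N : ℕ) [NeZero N] (S : Finset ℕ)
    (𝒪' : Type) [CommRing 𝒪'] [IsDomain 𝒪'] [CharZero 𝒪']
    (χ : CuspForm.heckeAlgebra N 2 (↑S : Set ℕ) →+* 𝒪')
    (M : Type) [AddCommGroup M] [Module.Free ℤ M] [Module.Finite ℤ M]
    (τ : Nat.Primes → Module.End ℤ M)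
    (e : ℂ ⊗[ℤ] M ≃ₗ[ℂ] CuspForm (Gamma0 N) 2 × CuspForm (Gamma0 N) 2)
    (he : ∀ r x, e ((τ r).baseChange ℂ x) = Prod.map (Tr N 2 r) (Tr N 2 r) (e x)) :
    ∃ (L : Type) (_ : Field L) (_ : Algebra (FractionRing 𝒪') L) (_ : Algebra 𝒪' L)
      (_ : IsScalarTower 𝒪' (FractionRing 𝒪') L) (_ : FiniteDimensional (FractionRing 𝒪') L)
      (c : Nat.Primes → L), (∀ r, IsIntegral 𝒪' (c r)) ∧
      (∀ (ℓ : ℕ) (hℓ : ℓ.Prime) (hℓN : ¬ ℓ ∣ N) (hℓS : ℓ ∉ (↑S : Set ℕ)),
        c ⟨ℓ, hℓ⟩ = algebraMap 𝒪' L (χ (CuspForm.heckeAlgebra.T hℓ hℓN hℓS))) ∧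
      Module.finrank L (eigenLattice (fun r => (τ r).baseChange L) c) = 2 := by
  obtain ⟨L, hL, c, h1, h2, h3⟩ :=
    exists_eigensystem_X0 (K := FractionRing 𝒪') N (↑S : Set ℕ) he χ
  exact ⟨L, inferInstance, inferInstance, inferInstance, inferInstance, hL, c, h2, h1, h3⟩

/-- Conjugating the whole family by an automorphism `w` of the lattice does not change the
dimension of the joint eigenspace (for the same eigenvalues). -/
theorem finrank_eigenLattice_conj {M : Type*} [AddCommGroup M] {ι : Type*}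
    (τ τ' : ι → Module.End ℤ M) (w : M ≃ₗ[ℤ] M) (hw : ∀ i m, τ' i (w m) = w (τ i m))
    {L : Type*} [Field L] (c : ι → L) :
    Module.finrank L (eigenLattice (fun i => (τ' i).baseChange L) c) =
      Module.finrank L (eigenLattice (fun i => (τ i).baseChange L) c) := by
  refine finrank_eigen_congr (w.baseChange ℤ L M M) _ _ c ?_
  intro i x
  induction x using TensorProduct.induction_on with
  | zero => simp
  | tmul a m => simp [hw]
  | add x y hx hy => simp only [map_add, hx, hy]

end Fermat.Agent.S30.Eigen.H4
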