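import Fermat.Agent.S21
import Fermat.Agent.S30.Eigen.H4
import Fermat.Agent.S30.Hecke.Parabolic
import Fermat.Agent.S30.Hecke.PeriodEquivariance

/-!
# J-4-E glue : the Eichler–Shimura lattice `M = Hom_par(Γ₀(N), ℤ)` with its Hecke operators
# realises hypothesis `(H4)` of `Final/Chain.s30_of_inputs`

* `esEquiv N : S₂(Γ₀(N)) × S₂(Γ₀(N)) ≃ₗ[ℂ] parabolicHoms ℂ (Gamma0 N) ℂ` : the bundled
  Eichler–Shimura isomorphism `periodHomPair N` (from `S21.result`);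
* `latticeEquiv N : ℂ ⊗[ℤ] parabolicHoms ℤ (Gamma0 N) ℤ ≃ₗ[ℂ] S₂ × S₂`
  `= (esEquiv N).symm ∘ baseChangeEquiv (Gamma0 N) ℂ`;
* `PairEquivariant N` : the one remaining input, `periodHomPair N (T_r f, T_r g) =
  τ_r (periodHomPair N (f, g))` for all primes `r` (with `T_r = U_r` for `r ∣ N`);
  it follows from `PeriodEquivariance.periodMap_heckeAll` and the commutation of `τ_r` with
  `charInvolution` (`pairEquivariant_of_charInvolution`);
* `latticeEquiv_tauPar` : `latticeEquiv` intertwines `(tauPar ℤ ℤ N r).baseChange ℂ` with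
  `Tr N 2 r × Tr N 2 r`;
* **`h4_X0`** : `(H4)` for `M = parabolicHoms ℤ (Gamma0 N) ℤ`, `τ r = tauPar ℤ ℤ N r r.2`;
* **`h4_X0_conj`** : `(H4)` for any family `τ'` conjugate to `tauPar` by an automorphism `w` of
  the lattice (`τ' r ∘ w = w ∘ tauPar r`; the Fricke-conjugated family).
-/

set_option autoImplicit false

open scoped TensorProduct
open CongruenceSubgroup ModularCurve ModularCurve.Period

noncomputable section

namespace Fermat.Agent.S30.Eigen.EichlerShimura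

open Fermat.Agent.S30.Eigen.MultOne Fermat.Agent.S30.Eigen.H4
open Fermat.Agent.S30.Padic.EigenLattice
open Fermat.Agent.S30.Hecke.Gamma0Cosets Fermat.Agent.S30.Hecke.Parabolic
open Fermat.Agent.S30.Hecke.PeriodEquivariance
open Fermat.Agent.S30.Lattice.BaseChange

variable (N : ℕ) [NeZero N]

/-- `heckeAll` (J-4-H) and `Tr` (J-4-E) are the same operator. -/
theorem heckeAll_eq_Tr (r : Nat.Primes) : heckeAll N r r.2 = Tr N 2 r := rfl

/-- **The remaining input**: the pair period map is Hecke-equivariant at every prime. -/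
def PairEquivariant : Prop :=
  ∀ (r : ℕ) (hr : r.Prime) (f g : CuspForm (Gamma0 N) 2),
    periodHomPair N (heckeAll N r hr f, heckeAll N r hr g) =
      tauAll N r hr (periodHomPair N (f, g))

/-- `PairEquivariant` from the commutation of `τ_r` with the involution `charInvolution`. -/
theorem pairEquivariant_of_charInvolution
    (h : ∀ (r : ℕ) (hr : r.Prime) (φ : Additive (Gamma0 N) →+ ℂ),
      tauAll N r hr (charInvolution N ℂ ℂ φ) = charInvolution N ℂ ℂ (tauAll N r hr φ)) :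
    PairEquivariant N := by
  intro r hr f g
  have hex : ExistsPeriodMapLinear N := Fermat.Agent.S21.Primitive.existsPeriodMapLinear
  obtain ⟨pml, hpml, hdef⟩ := periodHomPair_def N hex
  rw [hdef]
  simp only [LinearMap.coprod_apply, LinearMap.comp_apply, LinearMap.add_apply,
    LinearMap.sub_apply, LinearMap.id_apply, hpml, periodMap_heckeAll, map_add, map_sub, h]

/-- **The bundled Eichler–Shimura isomorphism** (`S21`). -/
def esEquiv : (CuspForm (Gamma0 N) 2 × CuspForm (Gamma0 N) 2) ≃ₗ[ℂ]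
    parabolicHoms ℂ (Gamma0 N) ℂ :=
  (LinearEquiv.ofInjective (periodHomPair N) (Fermat.Agent.S21.result N).1).trans
    (LinearEquiv.ofEq _ _ (Fermat.Agent.S21.result N).2)

theorem coe_esEquiv (x : CuspForm (Gamma0 N) 2 × CuspForm (Gamma0 N) 2) :
    ((esEquiv N x : parabolicHoms ℂ (Gamma0 N) ℂ) : Additive (Gamma0 N) →+ ℂ) =
      periodHomPair N x := rfl

/-- `esEquiv` intertwines `Tr × Tr` with `tauPar ℂ ℂ`. -/
theorem esEquiv_Tr (h : PairEquivariant N) (r : Nat.Primes)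
    (x : CuspForm (Gamma0 N) 2 × CuspForm (Gamma0 N) 2) :
    esEquiv N (Prod.map (Tr N 2 r) (Tr N 2 r) x) = tauPar ℂ ℂ N r r.2 (esEquiv N x) := by
  apply Subtype.ext
  rw [coe_tauPar, coe_esEquiv, coe_esEquiv]
  exact h r r.2 x.1 x.2

/-- **The Eichler–Shimura lattice isomorphism** `ℂ ⊗ Hom_par(Γ₀(N), ℤ) ≃ S₂ × S₂`. -/
def latticeEquiv : ℂ ⊗[ℤ] (parabolicHoms ℤ (Gamma0 N) ℤ) ≃ₗ[ℂ]
    CuspForm (Gamma0 N) 2 × CuspForm (Gamma0 N) 2 :=
  (baseChangeEquiv (Gamma0 N) ℂ).trans (esEquiv N).symm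

theorem latticeEquiv_apply (x : ℂ ⊗[ℤ] (parabolicHoms ℤ (Gamma0 N) ℤ)) :
    latticeEquiv N x = (esEquiv N).symm (baseChangeEquiv (Gamma0 N) ℂ x) := rfl

/-- **`latticeEquiv` is Hecke-equivariant** : the hypothesis `he` of `H4.h4_of_intertwine`. -/
theorem latticeEquiv_tauPar (h : PairEquivariant N) (r : Nat.Primes)
    (x : ℂ ⊗[ℤ] (parabolicHoms ℤ (Gamma0 N) ℤ)) :
    latticeEquiv N ((tauPar ℤ ℤ N r r.2).baseChange ℂ x) =
      Prod.map (Tr N 2 r) (Tr N 2 r) (latticeEquiv N x) := by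
  rw [latticeEquiv_apply, latticeEquiv_apply, baseChangeEquiv_tauPar, LinearEquiv.symm_apply_eq,
    esEquiv_Tr N h, LinearEquiv.apply_symm_apply]

/-- **(H4)** for the Eichler–Shimura lattice with the operators `tauPar`. -/
theorem h4_X0 (h : PairEquivariant N) (S : Finset ℕ)
    (𝒪' : Type) [CommRing 𝒪'] [IsDomain 𝒪'] [CharZero 𝒪']
    (χ : CuspForm.heckeAlgebra N 2 (↑S : Set ℕ) →+* 𝒪') :
    ∃ (L : Type) (_ : Field L) (_ : Algebra (FractionRing 𝒪') L) (_ : Algebra 𝒪' L)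
      (_ : IsScalarTower 𝒪' (FractionRing 𝒪') L) (_ : FiniteDimensional (FractionRing 𝒪') L)
      (c : Nat.Primes → L), (∀ r, IsIntegral 𝒪' (c r)) ∧
      (∀ (ℓ : ℕ) (hℓ : ℓ.Prime) (hℓN : ¬ ℓ ∣ N) (hℓS : ℓ ∉ (↑S : Set ℕ)),
        c ⟨ℓ, hℓ⟩ = algebraMap 𝒪' L (χ (CuspForm.heckeAlgebra.T hℓ hℓN hℓS))) ∧
      Module.finrank L (eigenLattice
        (fun r : Nat.Primes => (tauPar ℤ ℤ N r r.2).baseChange L) c) = 2 :=
  h4_of_intertwine N S 𝒪' χ (parabolicHoms ℤ (Gamma0 N) ℤ)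
    (fun r : Nat.Primes => tauPar ℤ ℤ N r r.2) (latticeEquiv N) (latticeEquiv_tauPar N h)

/-- **(H4)** for any family `τ'` conjugate to `tauPar` by an automorphism `w` of the lattice. -/
theorem h4_X0_conj (h : PairEquivariant N) (S : Finset ℕ)
    (𝒪' : Type) [CommRing 𝒪'] [IsDomain 𝒪'] [CharZero 𝒪']
    (χ : CuspForm.heckeAlgebra N 2 (↑S : Set ℕ) →+* 𝒪')
    (τ' : Nat.Primes → Module.End ℤ (parabolicHoms ℤ (Gamma0 N) ℤ))
    (w : parabolicHoms ℤ (Gamma0 N) ℤ ≃ₗ[ℤ] parabolicHoms ℤ (Gamma0 N) ℤ)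
    (hw : ∀ (r : Nat.Primes) m, τ' r (w m) = w (tauPar ℤ ℤ N r r.2 m)) :
    ∃ (L : Type) (_ : Field L) (_ : Algebra (FractionRing 𝒪') L) (_ : Algebra 𝒪' L)
      (_ : IsScalarTower 𝒪' (FractionRing 𝒪') L) (_ : FiniteDimensional (FractionRing 𝒪') L)
      (c : Nat.Primes → L), (∀ r, IsIntegral 𝒪' (c r)) ∧
      (∀ (ℓ : ℕ) (hℓ : ℓ.Prime) (hℓN : ¬ ℓ ∣ N) (hℓS : ℓ ∉ (↑S : Set ℕ)),
        c ⟨ℓ, hℓ⟩ = algebraMap 𝒪' L (χ (CuspForm.heckeAlgebra.T hℓ hℓN hℓS))) ∧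
      Module.finrank L (eigenLattice (fun r : Nat.Primes => (τ' r).baseChange L) c) = 2 := by
  obtain ⟨L, i1, i2, i3, i4, i5, c, h1, h2, h3⟩ := h4_X0 N h S 𝒪' χ
  refine ⟨L, i1, i2, i3, i4, i5, c, h1, h2, ?_⟩
  exact (finrank_eigenLattice_conj (fun r : Nat.Primes => tauPar ℤ ℤ N r r.2) τ' w hw c).trans h3

end Fermat.Agent.S30.Eigen.EichlerShimura
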