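import Fermat.Agent.S30.Eigen.Transfer
import Fermat.Agent.S30.Eigen.MultOne
import Fermat.Agent.S23.FinDim

/-!
# J-4-E (E1)+(E2) assembled for `X₀(N)`

`exists_eigensystem_X0` : given an integral lattice `M` with operators `τ r` (all primes `r`) and
an Eichler–Shimura isomorphism `e : ℂ ⊗ M ≃ S₂(Γ₀(N)) × S₂(Γ₀(N))` intertwining `τ r` with
`Tr N 2 r × Tr N 2 r`, every character `χ` of the Prelude Hecke algebra `heckeAlgebra N 2 S` with
values in a characteristic-zero domain `𝒪'` extends to a system of eigenvalues `c r`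
(all primes `r`) in a finite extension `L` of `Frac 𝒪'`, integral over `𝒪'`, with
`c ℓ = χ (T_ℓ)` for `ℓ ∤ N`, `ℓ ∉ S`, and the joint eigenspace in `L ⊗ M` has dimension
exactly `2`.
-/

set_option autoImplicit false

open scoped TensorProduct
open CongruenceSubgroup

namespace Fermat.Agent.S30.Eigen.X0

open Fermat.Agent.S30.Eigen.Transfer Fermat.Agent.S30.Eigen.MultOne

theorem exists_eigensystem_X0 (N : ℕ) [NeZero N] (S : Set ℕ)
    {M : Type*} [AddCommGroup M] [Module.Free ℤ M] [Module.Finite ℤ M]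
    {τ : Nat.Primes → Module.End ℤ M}
    {e : ℂ ⊗[ℤ] M ≃ₗ[ℂ] CuspForm (Gamma0 N) 2 × CuspForm (Gamma0 N) 2}
    (he : ∀ r x, e ((τ r).baseChange ℂ x) = Prod.map (Tr N 2 r) (Tr N 2 r) (e x))
    {𝒪' : Type*} [CommRing 𝒪'] [IsDomain 𝒪'] [CharZero 𝒪']
    {K : Type*} [Field K] [Algebra 𝒪' K] [IsFractionRing 𝒪' K]
    (χ : CuspForm.heckeAlgebra N 2 S →+* 𝒪') :
    ∃ (L : IntermediateField K (AlgebraicClosure K)) (_ : FiniteDimensional K L)
      (c : Nat.Primes → L),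
      (∀ (ℓ : ℕ) (hℓ : ℓ.Prime) (hℓN : ¬ ℓ ∣ N) (hℓS : ℓ ∉ S),
        c ⟨ℓ, hℓ⟩ = algebraMap 𝒪' L (χ (CuspForm.heckeAlgebra.T hℓ hℓN hℓS))) ∧
      (∀ r, IsIntegral 𝒪' (c r)) ∧
      Module.finrank L (eigen (fun r => (τ r).baseChange L) c) = 2 := by
  have : FiniteDimensional ℂ (CuspForm (Gamma0 N) 2) :=
    Fermat.Agent.S23.FinDim.finiteDimensional_cuspForm N 2
  obtain ⟨L, hL, c, h1, h2, h3⟩ :=
    exists_eigensystem_finrank_two (K := K) (a₁ := a1 N 2) he (Tr_comm N 2)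
      (fun w hw => hpair N 2 w hw) {r : Nat.Primes | (r : ℕ) ∉ S} (chiAdjoin N 2 S χ)
  refine ⟨L, hL, c, fun ℓ hℓ hℓN hℓS => ?_, h2, h3⟩
  rw [h1 ⟨ℓ, hℓ⟩ hℓS, chiAdjoin_T N 2 S χ hℓ hℓN hℓS]

end Fermat.Agent.S30.Eigen.X0
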